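import Fermat.Agent.FF4.K8Q6.LamToForms

/-!
# PROGRAMME II, kernel K8, leaf (Q6), ANY index type (helper9)

`K8qC` / `k8_endgame` (helper19) quantify over an arbitrary index type `ι` with `ℓ : ι → Nat.Primes`,
`ℓ i ∤ N p`.  The word bridge (commutative Hecke polynomial `t ↦` word `w`) produces words indexed by
`ι = ↥S`, `S : Set Nat.Primes`.  This file gives (Q6) for EVERY index type:

* `lift_heckeFam_eq_zero_of_lift_TLam_eq_zero` : if `ℓ i ∤ N` for all `i` and the word `w`, evaluated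
  at the lattice operators `TLam N (ℓ i)`, is `0` on `Λ(N)`, then `w`, evaluated at
  `S49.heckeFam N (ℓ i)`, is `0` on `S₂(Γ₀(N))` — literally the hypothesis `hw` of `K8qC`;
* `lift_TLam_eq_zero_iff_lift_heckeFam_eq_zero` : the iff;
* `lift_heckeFam_eq_zero_of_forall_apply` : the same from the pointwise hypothesis `∀ y, w y = 0`.

Proof: reindex along `ι → PrimesAway {primes dividing N}` and use the landed
`BR2.NewQuotient.liftTLam_eq_zero_iff` (through `LamToForms`).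
-/

set_option autoImplicit false
set_option linter.unusedSectionVars false

noncomputable section

namespace Fermat.Agent.FF4.K8Q6

open CuspForm ModularCurve Fermat.Agent.Jac Fermat.Agent.BR2.NewQuotient

variable (N : ℕ) [NeZero N]

/-- the set of the primes dividing `N` -/
def primeDivisorSet : Set ℕ := {r | r.Prime ∧ r ∣ N}

theorem mem_primeDivisorSet (r : ℕ) (hr : r.Prime) (h : r ∣ N) : r ∈ primeDivisorSet N := ⟨hr, h⟩

variable {ι : Type*} (ℓ : ι → Nat.Primes)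

/-- reindexing of the variables along `ℓ` -/
def reindex (hℓ : ∀ i, ¬ ((ℓ i : Nat.Primes) : ℕ) ∣ N) (i : ι) : PrimesAway (primeDivisorSet N) := ⟨ℓ i, fun h => hℓ i h.2⟩

theorem primeOf_reindex (hℓ : ∀ i, ¬ ((ℓ i : Nat.Primes) : ℕ) ∣ N) (i : ι) : primeOf (primeDivisorSet N) (reindex N ℓ hℓ i) = ℓ i := rfl

/-- reindexing of the words along `ℓ` -/
def reindexAlg (hℓ : ∀ i, ¬ ((ℓ i : Nat.Primes) : ℕ) ∣ N) :
    FreeAlgebra ℤ ι →ₐ[ℤ] FreeAlgebra ℤ (PrimesAway (primeDivisorSet N)) :=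
  FreeAlgebra.lift ℤ (fun i => FreeAlgebra.ι ℤ (reindex N ℓ hℓ i))

/-- evaluation of a reindexed word -/
theorem lift_reindexAlg (hℓ : ∀ i, ¬ ((ℓ i : Nat.Primes) : ℕ) ∣ N)
    {B : Type*} [Semiring B] [Algebra ℤ B]
    (f : PrimesAway (primeDivisorSet N) → B) (w : FreeAlgebra ℤ ι) :
    FreeAlgebra.lift ℤ f (reindexAlg N ℓ hℓ w) =
      FreeAlgebra.lift ℤ (fun i => f (reindex N ℓ hℓ i)) w := by
  have h : (FreeAlgebra.lift ℤ f).comp (reindexAlg N ℓ hℓ) =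
      FreeAlgebra.lift ℤ (fun i => f (reindex N ℓ hℓ i)) := by
    apply FreeAlgebra.hom_ext
    funext i
    show FreeAlgebra.lift ℤ f (reindexAlg N ℓ hℓ (FreeAlgebra.ι ℤ i)) =
      FreeAlgebra.lift ℤ (fun i => f (reindex N ℓ hℓ i)) (FreeAlgebra.ι ℤ i)
    unfold reindexAlg
    rw [FreeAlgebra.lift_ι_apply, FreeAlgebra.lift_ι_apply, FreeAlgebra.lift_ι_apply]
  exact congrArg (fun g : FreeAlgebra ℤ ι →ₐ[ℤ] B => g w) h

/-- **(Q6), any index type, iff form.** -/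
theorem lift_TLam_eq_zero_iff_lift_heckeFam_eq_zero (hℓ : ∀ i, ¬ ((ℓ i : Nat.Primes) : ℕ) ∣ N)
    (w : FreeAlgebra ℤ ι) :
    FreeAlgebra.lift ℤ (fun i => TLam N (ℓ i)) w = 0 ↔
      FreeAlgebra.lift ℤ (fun i => Fermat.Agent.S49.heckeFam N (ℓ i)) w = 0 := by
  have h1 : liftTLam N (primeDivisorSet N) (reindexAlg N ℓ hℓ w) =
      FreeAlgebra.lift ℤ (fun i => TLam N (ℓ i)) w := by
    unfold liftTLam
    rw [lift_reindexAlg]
    rfl
  have h2 : FreeAlgebra.lift ℤ (fun i : PrimesAway (primeDivisorSet N) =>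
        Fermat.Agent.S49.heckeFam N (primeOf (primeDivisorSet N) i)) (reindexAlg N ℓ hℓ w) =
      FreeAlgebra.lift ℤ (fun i => Fermat.Agent.S49.heckeFam N (ℓ i)) w := by
    rw [lift_reindexAlg]
    rfl
  rw [← h1, ← h2]
  exact liftTLam_eq_zero_iff_lift_heckeFam_eq_zero N (primeDivisorSet N)
    (mem_primeDivisorSet N) _

/-- **(Q6), any index type**: a word in the `X_i`, with `ℓ i ∤ N`, which kills the lattice `Λ(N)`
(evaluated at the `TLam N (ℓ i)`) kills `S₂(Γ₀(N))` (evaluated at the `S49.heckeFam N (ℓ i)`) —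
the hypothesis `hw` of `K8qC` and of `k8_endgame`. -/
theorem lift_heckeFam_eq_zero_of_lift_TLam_eq_zero (hℓ : ∀ i, ¬ ((ℓ i : Nat.Primes) : ℕ) ∣ N)
    (w : FreeAlgebra ℤ ι)
    (h : FreeAlgebra.lift ℤ (fun i => TLam N (ℓ i)) w = 0) :
    FreeAlgebra.lift ℤ (fun i => Fermat.Agent.S49.heckeFam N (ℓ i)) w = 0 :=
  (lift_TLam_eq_zero_iff_lift_heckeFam_eq_zero N ℓ hℓ w).mp h

/-- the same from the pointwise hypothesis -/
theorem lift_heckeFam_eq_zero_of_forall_apply (hℓ : ∀ i, ¬ ((ℓ i : Nat.Primes) : ℕ) ∣ N)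
    (w : FreeAlgebra ℤ ι)
    (h : ∀ y : Lam N, FreeAlgebra.lift ℤ (fun i => TLam N (ℓ i)) w y = 0) :
    FreeAlgebra.lift ℤ (fun i => Fermat.Agent.S49.heckeFam N (ℓ i)) w = 0 :=
  lift_heckeFam_eq_zero_of_lift_TLam_eq_zero N ℓ hℓ w (LinearMap.ext h)

/-- the side condition of `K8qC` from `ℓ i ∤ N` and `ℓ i ≠ p` -/
theorem not_dvd_mul_of_not_dvd_of_ne {p : ℕ} (hp : p.Prime) {l : Nat.Primes} (h1 : ¬ (l : ℕ) ∣ N)
    (h2 : (l : ℕ) ≠ p) : ¬ (l : ℕ) ∣ N * p := by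
  intro h
  rcases (Nat.Prime.dvd_mul l.2).mp h with h3 | h3
  · exact h1 h3
  · exact h2 ((Nat.prime_dvd_prime_iff_eq l.2 hp).mp h3)

end Fermat.Agent.FF4.K8Q6
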