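import Mathlib
import Fermat.Agent.BR2.NewQuotient
import Fermat.Agent.S49.Forms

/-!
# PROGRAMME II, kernel K8, leaf (Q6) (helper9): a word killing the lattice `Λ(N)` kills `S₂(Γ₀(N))`

The landed `BR2.NewQuotient.liftTLam_eq_zero_iff` (through the ring isomorphism `lamPsi` between
the lattice Hecke algebra and the Hecke algebra of cusp forms) says that a noncommutative
polynomial `w` in the variables `X_l` (`l` a prime outside `S`, `S` containing the primes dividing
`N`) vanishes on the lattice `Λ(N) = Hom_par(Γ₀(N), ℤ)` iff it vanishes in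
`CuspForm.heckeAlgebra N 2 S`.  This file restates it in EXACTLY the hypothesis shape of the K8
contract `K8qC` (`FreeAlgebra.lift ℤ (fun i => S49.heckeFam N (ℓ i)) w = 0`, formal index type
`ι := PrimesAway S`, `ℓ i := i.1`), so that the `(NO)`-step output of
`BR2.NewQuotient.exists_poly_newQuotient` (`liftTLam M₀ S' p = 0`) feeds `K8qC` literally.
-/

set_option autoImplicit false

noncomputable section

namespace Fermat.Agent.FF4.K8Q6

open CuspForm ModularCurve Fermat.Agent.Jac Fermat.Agent.BR2.NewQuotient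

variable (N : ℕ) [NeZero N] (S : Set ℕ)

/-- the primes of the formal index type `PrimesAway S` -/
def primeOf (i : PrimesAway S) : Nat.Primes := i.1

theorem primeOf_notMem (i : PrimesAway S) : ((primeOf S i : Nat.Primes) : ℕ) ∉ S := i.2

theorem primeOf_not_dvd (hNS : ∀ r : ℕ, r.Prime → r ∣ N → r ∈ S) (i : PrimesAway S) :
    ¬ ((primeOf S i : Nat.Primes) : ℕ) ∣ N :=
  not_dvd_of_primesAway N S hNS i

/-- `S49.heckeFam` at a prime not dividing the level is `T_l`. -/
theorem heckeFam_of_not_dvd {l : Nat.Primes} (h : ¬ (l : ℕ) ∣ N) :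
    Fermat.Agent.S49.heckeFam N l = CuspForm.heckeTLin 2 l.2 h := by
  unfold Fermat.Agent.S49.heckeFam
  rw [dif_neg h]

/-- The evaluation `liftT` of the landed (NO)-machinery, as an endomorphism of `S₂(Γ₀(N))`, is the
evaluation at the family `S49.heckeFam N`. -/
theorem coe_liftT_eq_lift_heckeFam (hNS : ∀ r : ℕ, r.Prime → r ∣ N → r ∈ S)
    (w : FreeAlgebra ℤ (PrimesAway S)) :
    ((liftT N S hNS w : heckeAlgebra N 2 S) :
        Module.End ℂ (CuspForm (CongruenceSubgroup.Gamma0 N) 2)) =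
      FreeAlgebra.lift ℤ (fun i : PrimesAway S => Fermat.Agent.S49.heckeFam N (primeOf S i)) w := by
  have h : (heckeAlgebra N 2 S).val.comp (liftT N S hNS) =
      FreeAlgebra.lift ℤ
        (fun i : PrimesAway S => Fermat.Agent.S49.heckeFam N (primeOf S i)) := by
    apply FreeAlgebra.hom_ext
    funext i
    show ((liftT N S hNS (FreeAlgebra.ι ℤ i) : heckeAlgebra N 2 S) :
        Module.End ℂ (CuspForm (CongruenceSubgroup.Gamma0 N) 2)) =
      FreeAlgebra.lift ℤ
        (fun i : PrimesAway S => Fermat.Agent.S49.heckeFam N (primeOf S i)) (FreeAlgebra.ι ℤ i)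
    rw [liftT_ι, FreeAlgebra.lift_ι_apply, heckeAlgebra.coe_T,
      heckeFam_of_not_dvd N (primeOf_not_dvd N S hNS i)]
    rfl
  exact congrArg (fun f : FreeAlgebra ℤ (PrimesAway S) →ₐ[ℤ]
    Module.End ℂ (CuspForm (CongruenceSubgroup.Gamma0 N) 2) => f w) h

/-- **(Q6), iff form.**  A word in the `X_l`, `l ∉ S`, kills the lattice `Λ(N)` iff it kills
`S₂(Γ₀(N))` (evaluation at `S49.heckeFam N`). -/
theorem liftTLam_eq_zero_iff_lift_heckeFam_eq_zero
    (hNS : ∀ r : ℕ, r.Prime → r ∣ N → r ∈ S) (w : FreeAlgebra ℤ (PrimesAway S)) :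
    liftTLam N S w = 0 ↔
      FreeAlgebra.lift ℤ
        (fun i : PrimesAway S => Fermat.Agent.S49.heckeFam N (primeOf S i)) w = 0 := by
  rw [liftTLam_eq_zero_iff N S hNS w, ← coe_liftT_eq_lift_heckeFam N S hNS w]
  constructor
  · intro h
    rw [h]
    rfl
  · intro h
    exact Subtype.ext h

/-- **(Q6)**, the direction consumed by `K8qC`: `w · Λ(N) = 0 ⇒ w = 0` on `S₂(Γ₀(N))`. -/
theorem lift_heckeFam_eq_zero_of_liftTLam_eq_zero
    (hNS : ∀ r : ℕ, r.Prime → r ∣ N → r ∈ S) (w : FreeAlgebra ℤ (PrimesAway S))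
    (h : liftTLam N S w = 0) :
    FreeAlgebra.lift ℤ
      (fun i : PrimesAway S => Fermat.Agent.S49.heckeFam N (primeOf S i)) w = 0 :=
  (liftTLam_eq_zero_iff_lift_heckeFam_eq_zero N S hNS w).mp h

/-- the side condition `ℓ ∤ N p` of `K8qC` for the index type `PrimesAway S`, when `S` contains
`p` and the primes dividing `N`. -/
theorem primeOf_not_dvd_mul (hNS : ∀ r : ℕ, r.Prime → r ∣ N → r ∈ S) {p : ℕ} (hp : p.Prime)
    (hpS : p ∈ S) (i : PrimesAway S) : ¬ ((primeOf S i : Nat.Primes) : ℕ) ∣ N * p := by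
  intro h
  rcases (Nat.Prime.dvd_mul (primeOf S i).2).mp h with h1 | h1
  · exact primeOf_not_dvd N S hNS i h1
  · have : ((primeOf S i : Nat.Primes) : ℕ) = p :=
      (Nat.prime_dvd_prime_iff_eq (primeOf S i).2 hp).mp h1
    exact primeOf_notMem S i (this ▸ hpS)

end Fermat.Agent.FF4.K8Q6
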